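import Mathlib.Data.ZMod.Basic
import Mathlib.Data.ZMod.Units
import Mathlib.Data.Rat.Floor
import Mathlib.Algebra.BigOperators.Intervals
import Mathlib.Tactic

/-!
# Dedekind sums

`s (h, k) = ∑_{r < k} ((r / k)) ((h r / k))` with the sawtooth `((x))`: periodicity, oddness, the
inverse argument, and the expression by `∑ r u_r`, `u_r` the residue of `h r` modulo `k`.
-/

set_option autoImplicit false

namespace FA.DedekindSums

/-- The sawtooth `((x))`. -/
def sawtooth (x : ℚ) : ℚ := if Int.fract x = 0 then 0 else Int.fract x - 1 / 2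

/-- The Dedekind sum `s (h, k)`. -/
def dedekindSum (h : ℤ) (k : ℕ) : ℚ :=
  ∑ r ∈ Finset.range k, sawtooth ((r : ℚ) / k) * sawtooth ((h : ℚ) * r / k)

/-- The sawtooth on residues. -/
def residueSaw {k : ℕ} (x : ZMod k) : ℚ := if x = 0 then 0 else (x.val : ℚ) / k - 1 / 2

variable {k : ℕ} [NeZero k]

theorem fract_div (a : ℤ) : Int.fract ((a : ℚ) / k) = ((a : ZMod k).val : ℚ) / k := by
  have hk : (0 : ℚ) < k := by exact_mod_cast NeZero.pos k
  have hlt : ((a : ZMod k).val : ℚ) < k := by exact_mod_cast ZMod.val_lt _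
  refine Int.fract_eq_iff.2 ⟨by positivity, (div_lt_one hk).2 hlt, a / k, ?_⟩
  have h : (((a : ZMod k).val : ℤ) : ℚ) = ((a % k : ℤ) : ℚ) := by rw [ZMod.val_intCast]
  rw [Int.emod_def, Int.cast_natCast] at h
  push_cast at h
  field_simp
  linarith

theorem sawtooth_div (a : ℤ) : sawtooth ((a : ℚ) / k) = residueSaw (a : ZMod k) := by
  have hk : (k : ℚ) ≠ 0 := NeZero.ne _
  rw [sawtooth, residueSaw, fract_div]
  refine if_congr ?_ rfl rfl
  rw [div_eq_zero_iff, Nat.cast_eq_zero, ZMod.val_eq_zero, or_iff_left hk]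

theorem sum_zmod {M : Type*} [AddCommMonoid M] (f : ZMod k → M) :
    ∑ x : ZMod k, f x = ∑ r ∈ Finset.range k, f r := by
  refine Finset.sum_bij' (fun x _ => x.val) (fun r _ => (r : ZMod k))
    (fun x _ => Finset.mem_range.2 x.val_lt) (fun r _ => Finset.mem_univ _)
    (fun x _ => ZMod.natCast_zmod_val x)
    (fun r hr => ZMod.val_natCast_of_lt (Finset.mem_range.1 hr))
    (fun x _ => by rw [ZMod.natCast_zmod_val])

theorem dedekindSum_eq_zmod (h : ℤ) :
    dedekindSum h k = ∑ x : ZMod k, residueSaw x * residueSaw ((h : ZMod k) * x) := by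
  rw [sum_zmod, dedekindSum]
  refine Finset.sum_congr rfl fun r _ => ?_
  rw [show (r : ℚ) = ((r : ℤ) : ℚ) from (Int.cast_natCast r).symm, ← Int.cast_mul, sawtooth_div,
    sawtooth_div, Int.cast_mul, Int.cast_natCast]

theorem residueSaw_neg (x : ZMod k) : residueSaw (-x) = -residueSaw x := by
  rcases eq_or_ne x 0 with rfl | hx
  · simp [residueSaw]
  · have : NeZero x := ⟨hx⟩
    have hk : (k : ℚ) ≠ 0 := NeZero.ne _
    rw [residueSaw, residueSaw, if_neg hx, if_neg (neg_ne_zero.2 hx), ZMod.val_neg_of_ne_zero,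
      Nat.cast_sub x.val_lt.le]
    field_simp
    ring

theorem dedekindSum_congr {h h' : ℤ} (e : (h : ZMod k) = (h' : ZMod k)) :
    dedekindSum h k = dedekindSum h' k := by
  rw [dedekindSum_eq_zmod, dedekindSum_eq_zmod, e]

theorem dedekindSum_neg (h : ℤ) : dedekindSum (-h) k = -dedekindSum h k := by
  rw [dedekindSum_eq_zmod, dedekindSum_eq_zmod, ← Finset.sum_neg_distrib]
  refine Finset.sum_congr rfl fun x _ => ?_
  rw [Int.cast_neg, neg_mul, residueSaw_neg, mul_neg]

theorem dedekindSum_inverse {h h' : ℤ} (e : ((h * h' : ℤ) : ZMod k) = 1) :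
    dedekindSum h' k = dedekindSum h k := by
  rw [Int.cast_mul] at e
  rw [dedekindSum_eq_zmod, dedekindSum_eq_zmod]
  let u : (ZMod k)ˣ := ⟨h', h, by rw [mul_comm]; exact e, e⟩
  refine Fintype.sum_equiv u.mulLeft _ _ fun x => ?_
  simp only [Units.mulLeft_apply, u]
  rw [← mul_assoc, e, one_mul, mul_comm]

theorem sum_val : ∑ x : ZMod k, (x.val : ℚ) = (k : ℚ) * (k - 1) / 2 := by
  rw [sum_zmod, Finset.sum_congr rfl fun r hr => by
    rw [ZMod.val_natCast_of_lt (Finset.mem_range.1 hr)]]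
  have h := Finset.sum_range_id_mul_two k
  have hk : 1 ≤ k := NeZero.pos k
  have h' : ((∑ i ∈ Finset.range k, i : ℕ) : ℚ) * 2 = (k : ℚ) * ((k - 1 : ℕ) : ℚ) := by
    exact_mod_cast h
  rw [Nat.cast_sum, Nat.cast_sub hk, Nat.cast_one] at h'
  linarith

/-- The formula by residues. -/
theorem dedekindSum_eq_residues {h : ℤ} (hu : IsUnit (h : ZMod k)) :
    dedekindSum h k =
      (∑ x : ZMod k, (x.val : ℚ) * (((h : ZMod k) * x).val : ℚ)) / (k : ℚ) ^ 2 -
        ((k : ℚ) - 1) / 4 := by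
  have hk : (k : ℚ) ≠ 0 := NeZero.ne _
  have hpt : ∀ x : ZMod k, residueSaw x * residueSaw ((h : ZMod k) * x) =
      ((x.val : ℚ) * (((h : ZMod k) * x).val : ℚ)) / (k : ℚ) ^ 2 -
        ((x.val : ℚ) + ((h : ZMod k) * x).val) / (2 * k) + 1 / 4 -
        if x = 0 then 1 / 4 else 0 := fun x => by
    rcases eq_or_ne x 0 with rfl | hx
    · simp [residueSaw]
    · rw [residueSaw, residueSaw, if_neg hx, if_neg (fun e => hx (hu.mul_right_eq_zero.1 e)),
        if_neg hx]
      field_simp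
      ring
  have hperm : ∑ x : ZMod k, (((h : ZMod k) * x).val : ℚ) = ∑ x : ZMod k, (x.val : ℚ) :=
    Fintype.sum_equiv hu.unit.mulLeft _ _ fun x => by simp
  rw [dedekindSum_eq_zmod, Finset.sum_congr rfl fun x _ => hpt x, Finset.sum_sub_distrib,
    Finset.sum_add_distrib, Finset.sum_sub_distrib, ← Finset.sum_div, ← Finset.sum_div,
    Finset.sum_add_distrib, hperm, sum_val, Finset.sum_ite_eq', if_pos (Finset.mem_univ _),
    Finset.sum_const, Finset.card_univ, ZMod.card, nsmul_eq_mul]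
  field_simp
  ring

end FA.DedekindSums
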