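import Fermat.Agent.DedekindSums.Basic
import Mathlib.NumberTheory.LegendreSymbol.JacobiSymbol

/-!
# Reciprocity for Dedekind sums

Counting lattice points under the diagonal of the `h × k` box gives
`12 (h A(h, k) + k A(k, h)) = (h - 1) (k - 1) (8 h k - h - k - 1)`, `A(h, k) = ∑ r ⌊h r / k⌋`,
hence reciprocity; with quadratic reciprocity this gives the congruence with the Jacobi symbol.
-/

set_option autoImplicit false

open scoped NumberTheorySymbols

namespace FA.DedekindSums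

/-- `∑_{r < k} r ⌊h r / k⌋`. -/
def weightedFloor (h k : ℕ) : ℤ := ∑ r ∈ Finset.range k, (r : ℤ) * ((h * r / k : ℕ) : ℤ)

theorem sum_range_int (n : ℕ) : 2 * ∑ r ∈ Finset.range n, (r : ℤ) = (n : ℤ) * ((n : ℤ) - 1) := by
  induction n with
  | zero => simp
  | succ n ih => rw [Finset.sum_range_succ, mul_add, ih]; push_cast; ring

theorem sum_sq_range (n : ℕ) : 6 * ∑ r ∈ Finset.range n, (r : ℤ) ^ 2 =
    (n : ℤ) * ((n : ℤ) - 1) * (2 * (n : ℤ) - 1) := by
  induction n with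
  | zero => simp
  | succ n ih => rw [Finset.sum_range_succ, mul_add, ih]; push_cast; ring

variable {h k : ℕ}

theorem sum_residues [NeZero k] (hco : Nat.Coprime h k) (F : ℕ → ℤ) :
    ∑ r ∈ Finset.range k, F (h * r % k) = ∑ r ∈ Finset.range k, F r := by
  have hu : IsUnit ((h : ℕ) : ZMod k) := (ZMod.isUnit_iff_coprime h k).2 hco
  have e1 : ∑ x : ZMod k, F (((h : ℕ) : ZMod k) * x).val = ∑ r ∈ Finset.range k, F (h * r % k) := by
    rw [sum_zmod]
    refine Finset.sum_congr rfl fun r _ => ?_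
    rw [← Nat.cast_mul, ZMod.val_natCast]
  have e2 : ∑ x : ZMod k, F x.val = ∑ r ∈ Finset.range k, F r := by
    rw [sum_zmod]
    exact Finset.sum_congr rfl fun r hr => by
      rw [ZMod.val_natCast_of_lt (Finset.mem_range.1 hr)]
  rw [← e1, ← e2]
  exact Fintype.sum_equiv hu.unit.mulLeft _ _ fun x => by simp

theorem floor_sums (hh : 0 < h) (hk : 0 < k) (hco : Nat.Coprime h k) :
    12 * ((h : ℤ) * weightedFloor h k + (k : ℤ) * weightedFloor k h) =
      ((h : ℤ) - 1) * ((k : ℤ) - 1) * (8 * h * k - h - k - 1) := by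
  have : NeZero k := ⟨hk.ne'⟩
  obtain ⟨Q, hQ⟩ : ∃ Q, Q = ∑ r ∈ Finset.range k, ((h * r / k : ℕ) : ℤ) ^ 2 := ⟨_, rfl⟩
  obtain ⟨T, hT⟩ : ∃ T, T = ∑ r ∈ Finset.range k, ((h * r / k : ℕ) : ℤ) := ⟨_, rfl⟩
  have hmod : ∀ r : ℕ, ((h * r % k : ℕ) : ℤ) = (h : ℤ) * r - (k : ℤ) * ((h * r / k : ℕ) : ℤ) :=
    fun r => by
      rw [eq_sub_iff_add_eq]
      exact_mod_cast Nat.mod_add_div (h * r) k
  have E1 : (h : ℤ) ^ 2 * ∑ r ∈ Finset.range k, (r : ℤ) ^ 2 -
      2 * h * k * weightedFloor h k + (k : ℤ) ^ 2 * Q = ∑ r ∈ Finset.range k, (r : ℤ) ^ 2 := by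
    refine (?_ : _ = _).trans (sum_residues hco fun v => (v : ℤ) ^ 2)
    rw [hQ, weightedFloor, Finset.mul_sum,
      Finset.mul_sum, Finset.mul_sum, ← Finset.sum_sub_distrib, ← Finset.sum_add_distrib]
    exact Finset.sum_congr rfl fun r _ => by rw [hmod]; ring
  have E3 : 2 * T = ((h : ℤ) - 1) * ((k : ℤ) - 1) := by
    have e := sum_residues hco fun v => (v : ℤ)
    simp only [hmod] at e
    rw [Finset.sum_sub_distrib, ← Finset.mul_sum, ← Finset.mul_sum, ← hT] at e
    refine mul_left_cancel₀ (Int.natCast_ne_zero.2 hk.ne') ?_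
    linear_combination (-2 : ℤ) * e + ((h : ℤ) - 1) * sum_range_int k
  have hlt : ∀ r ∈ Finset.range k, h * r / k < h := fun r hr =>
    (Nat.div_lt_iff_lt_mul hk).2 (Nat.mul_lt_mul_of_pos_left (Finset.mem_range.1 hr) hh)
  have tri : ∀ r ∈ Finset.range k,
      ((h * r / k : ℕ) : ℤ) ^ 2 + ((h * r / k : ℕ) : ℤ) =
        ∑ s ∈ Finset.range h, if s ≤ h * r / k then 2 * (s : ℤ) else 0 := fun r hr => by
    rw [← Finset.sum_filter, show (Finset.range h).filter (fun s => s ≤ h * r / k) =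
      Finset.range (h * r / k + 1) by
        ext s
        simp only [Finset.mem_filter, Finset.mem_range]
        have := hlt r hr
        omega, ← Finset.mul_sum, sum_range_int]
    push_cast
    ring
  have count : ∀ s ∈ Finset.range h,
      ∑ r ∈ Finset.range k, (if s ≤ h * r / k then 2 * (s : ℤ) else 0) =
        2 * s * ((k : ℤ) - 1 - ((k * s / h : ℕ) : ℤ)) := fun s hs => by
    rcases Nat.eq_zero_or_pos s with rfl | hs0
    · simp
    have hsh : s < h := Finset.mem_range.1 hs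
    have hsk : k * s / h < k :=
      (Nat.div_lt_iff_lt_mul hh).2 (Nat.mul_lt_mul_of_pos_left hsh hk)
    rw [← Finset.sum_filter, show (Finset.range k).filter (fun r => s ≤ h * r / k) =
      Finset.Ioo (k * s / h) k by
        ext r
        simp only [Finset.mem_filter, Finset.mem_range, Finset.mem_Ioo, Nat.le_div_iff_mul_le hk,
          Nat.div_lt_iff_lt_mul hh]
        constructor
        · rintro ⟨hr, hle⟩
          refine ⟨?_, hr⟩
          rcases hle.lt_or_eq with hl | he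
          · rw [mul_comm k s, mul_comm r h]
            exact hl
          · have hd : h ∣ k * s := ⟨r, by rw [mul_comm k s, he]⟩
            exact absurd (Nat.le_of_dvd hs0 (hco.dvd_of_dvd_mul_left hd)) (by omega)
        · rintro ⟨hl, hr⟩
          rw [mul_comm k s, mul_comm r h] at hl
          exact ⟨hr, hl.le⟩,
      Finset.sum_const, Nat.card_Ioo, nsmul_eq_mul,
      Nat.cast_sub (by omega), Nat.cast_sub hsk.le]
    ring
  have E2 : Q + T = ((k : ℤ) - 1) * h * ((h : ℤ) - 1) - 2 * weightedFloor k h := by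
    rw [hQ, hT, ← Finset.sum_add_distrib, Finset.sum_congr rfl tri, Finset.sum_comm,
      Finset.sum_congr rfl count, weightedFloor, mul_assoc, ← sum_range_int h, Finset.mul_sum,
      Finset.mul_sum, Finset.mul_sum, ← Finset.sum_sub_distrib]
    exact Finset.sum_congr rfl fun s _ => by ring
  refine mul_left_cancel₀ (Int.natCast_ne_zero.2 hk.ne') ?_
  linear_combination (-6 : ℤ) * E1 + 6 * (k : ℤ) ^ 2 * E2 - 3 * (k : ℤ) ^ 2 * E3 +
    ((h : ℤ) ^ 2 - 1) * sum_sq_range k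

theorem dedekindSum_eq_floor (hk : 0 < k) (hco : Nat.Coprime h k) :
    dedekindSum h k = (h : ℚ) * ((k : ℚ) - 1) * (2 * k - 1) / (6 * k) -
      (weightedFloor h k : ℚ) / k - ((k : ℚ) - 1) / 4 := by
  have : NeZero k := ⟨hk.ne'⟩
  have hS : ∑ x : ZMod k, (x.val : ℚ) * ((((h : ℤ) : ZMod k) * x).val : ℚ) =
      (((h : ℤ) * ∑ r ∈ Finset.range k, (r : ℤ) ^ 2 - k * weightedFloor h k : ℤ) : ℚ) := by
    rw [sum_zmod, weightedFloor, Finset.mul_sum, Finset.mul_sum, ← Finset.sum_sub_distrib,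
      Int.cast_sum]
    refine Finset.sum_congr rfl fun r hr => ?_
    rw [ZMod.val_natCast_of_lt (Finset.mem_range.1 hr), Int.cast_natCast,
      show (h : ZMod k) * (r : ZMod k) = ((h * r : ℕ) : ZMod k) from (Nat.cast_mul h r).symm,
      ZMod.val_natCast]
    have e : ((h * r % k : ℕ) : ℚ) + (k : ℚ) * ((h * r / k : ℕ) : ℚ) = (h : ℚ) * r := by
      exact_mod_cast Nat.mod_add_div (h * r) k
    simp only [Int.cast_sub, Int.cast_mul, Int.cast_pow, Int.cast_natCast]
    linear_combination (r : ℚ) * e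
  rw [dedekindSum_eq_residues (by simpa using (ZMod.isUnit_iff_coprime h k).2 hco), hS]
  have hR : (6 : ℚ) * ((∑ r ∈ Finset.range k, (r : ℤ) ^ 2 : ℤ) : ℚ) =
      (k : ℚ) * (k - 1) * (2 * k - 1) := by exact_mod_cast sum_sq_range k
  rw [Int.cast_sub, Int.cast_mul, Int.cast_mul, Int.cast_natCast, Int.cast_natCast]
  generalize ((∑ r ∈ Finset.range k, (r : ℤ) ^ 2 : ℤ) : ℚ) = R at hR ⊢
  have hk' : (k : ℚ) ≠ 0 := Nat.cast_ne_zero.2 hk.ne'
  field_simp
  linear_combination 4 * (h : ℚ) * hR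

/-- **Reciprocity.** -/
theorem reciprocity (hh : 0 < h) (hk : 0 < k) (hco : Nat.Coprime h k) :
    dedekindSum h k + dedekindSum k h =
      -(1 / 4) + ((h : ℚ) / k + (k : ℚ) / h + 1 / ((h : ℚ) * k)) / 12 := by
  rw [dedekindSum_eq_floor hk hco, dedekindSum_eq_floor hh hco.symm]
  have e : (12 : ℚ) * ((h : ℚ) * weightedFloor h k + (k : ℚ) * weightedFloor k h) =
      ((h : ℚ) - 1) * ((k : ℚ) - 1) * (8 * h * k - h - k - 1) := by
    exact_mod_cast floor_sums hh hk hco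
  have hh' : (h : ℚ) ≠ 0 := Nat.cast_ne_zero.2 hh.ne'
  have hk' : (k : ℚ) ≠ 0 := Nat.cast_ne_zero.2 hk.ne'
  field_simp
  linear_combination (-24 : ℚ) * e

theorem dedekindSum_one (hk : 0 < k) :
    dedekindSum 1 k = ((k : ℚ) - 1) * ((k : ℚ) - 2) / (12 * k) := by
  have h0 : weightedFloor 1 k = 0 := Finset.sum_eq_zero fun r hr => by
    rw [one_mul, Nat.div_eq_of_lt (Finset.mem_range.1 hr)]
    simp
  have h := dedekindSum_eq_floor (h := 1) hk (Nat.coprime_one_left k)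
  rw [Nat.cast_one] at h
  rw [h, h0]
  have hk' : (k : ℚ) ≠ 0 := Nat.cast_ne_zero.2 hk.ne'
  field_simp
  ring

/-- Reduction to a natural number below `k`. -/
theorem exists_residue {a : ℤ} (hk : 0 < k) (ha : Int.gcd a k = 1) :
    ∃ g : ℕ, g < k ∧ Nat.Coprime g k ∧ ((g : ℤ) : ZMod k) = (a : ZMod k) ∧
      (g : ℤ) % k = a % k ∧ dedekindSum g k = dedekindSum a k := by
  have : NeZero k := ⟨hk.ne'⟩
  have hk0 : (k : ℤ) ≠ 0 := Int.natCast_ne_zero.2 hk.ne'
  obtain ⟨g, hg⟩ := Int.eq_ofNat_of_zero_le (Int.emod_nonneg a hk0)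
  have hlt := Int.emod_lt_of_pos a (Int.natCast_pos.2 hk)
  have hcast : ((g : ℤ) : ZMod k) = (a : ZMod k) := by rw [← hg, ZMod.intCast_mod]
  refine ⟨g, by omega, ?_, hcast, by rw [← hg, Int.emod_emod_of_dvd _ dvd_rfl],
    dedekindSum_congr hcast⟩
  have : Int.gcd (a % k) k = 1 := by
    rw [Int.emod_def, sub_eq_add_neg, ← mul_neg, Int.gcd_add_mul_left_left, ha]
  rwa [hg, Int.gcd_natCast_natCast] at this

theorem six_mul_integral {a : ℤ} (hk : 0 < k) (ha : Int.gcd a k = 1) :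
    ∃ n : ℤ, (n : ℚ) = 6 * k * dedekindSum a k := by
  obtain ⟨g, -, hco, -, -, he⟩ := exists_residue hk ha
  obtain ⟨t, ht⟩ := (Int.even_mul_pred_self (k : ℤ)).two_dvd
  refine ⟨(g : ℤ) * ((k : ℤ) - 1) * (2 * k - 1) - 6 * weightedFloor g k - 3 * t, ?_⟩
  have ht' : (k : ℚ) * ((k : ℚ) - 1) = 2 * t := by exact_mod_cast ht
  rw [← he, dedekindSum_eq_floor hk hco]
  have hk' : (k : ℚ) ≠ 0 := Nat.cast_ne_zero.2 hk.ne'
  push_cast
  field_simp
  linear_combination 6 * ht'

theorem congr_step : ∀ g k j : ZMod 8, g * g = 1 → k * k = 1 → (j = 1 ∨ j = -1) →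
    g * (g ^ 2 + k ^ 2 + 1 - 3 * g * k - k * (g + 1 - 2 * j)) =
      k + 1 - 2 * ((if g = 1 ∨ g = 5 ∨ k = 1 ∨ k = 5 then 1 else -1) * j) := by
  decide

theorem congr_neg : ∀ k j : ZMod 8, k * k = 1 → (j = 1 ∨ j = -1) →
    -(k + 1 - 2 * j) = k + 1 - 2 * ((if k = 1 ∨ k = 5 then 1 else -1) * j) := by
  decide

theorem odd_cast_eight {n : ℕ} (hn : Odd n) : (n : ZMod 8) * n = 1 ∧
    ((n : ZMod 8) = 1 ∨ (n : ZMod 8) = 5 ↔ n % 4 = 1) := by
  obtain ⟨m, rfl⟩ := hn
  have h : (2 * m + 1) % 4 = 1 ↔ m % 2 = 0 := by omega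
  have key : ∀ t : ZMod 8, (2 * t + 1) * (2 * t + 1) = 1 ∧
      (2 * t + 1 = 1 ∨ 2 * t + 1 = 5 ↔ t.val % 2 = 0) := by decide
  have := key (m : ZMod 8)
  push_cast
  rw [h]
  rwa [ZMod.val_natCast, Nat.mod_mod_of_dvd _ (by norm_num : 2 ∣ 8)] at this

/-- **The congruence with the Jacobi symbol.** -/
theorem jacobi_congr : ∀ (k : ℕ) (a : ℤ), Odd k → Int.gcd a k = 1 →
    ∃ n : ℤ, (n : ℚ) = 12 * k * dedekindSum a k ∧
      (n : ZMod 8) = (k : ZMod 8) + 1 - 2 * (J(a | k) : ZMod 8) := by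
  intro k
  induction k using Nat.strong_induction_on with
  | _ k ih =>
  intro a hodd ha
  have hk : 0 < k := hodd.pos
  have : NeZero k := ⟨hk.ne'⟩
  rcases eq_or_ne k 1 with rfl | hk1
  · exact ⟨0, by simp [dedekindSum, sawtooth], by
      rw [jacobiSym.one_right]; push_cast; ring⟩
  obtain ⟨g, hg, hco, -, hmod, he⟩ := exists_residue hk ha
  rw [← he, ← jacobiSym.mod_left' hmod]
  have hg0 : g ≠ 0 := fun h0 => hk1 (by simpa [h0] using hco)
  -- the case of an odd residue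
  have main : ∀ g : ℕ, g < k → Odd g → Nat.Coprime g k → ∃ n : ℤ,
      (n : ℚ) = 12 * k * dedekindSum g k ∧
        (n : ZMod 8) = (k : ZMod 8) + 1 - 2 * (J(g | k) : ZMod 8) := by
    intro g hg hgodd hco
    have hco' : Int.gcd (k : ℤ) g = 1 := by
      rw [Int.gcd_natCast_natCast]
      exact hco.symm
    obtain ⟨m, hm, hm8⟩ := ih g hg (k : ℤ) hgodd hco'
    obtain ⟨n, hn⟩ := six_mul_integral (a := (g : ℤ)) hk
      (by rw [Int.gcd_natCast_natCast]; exact hco)
    refine ⟨2 * n, by push_cast; linear_combination 2 * hn, ?_⟩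
    have hrec : (g : ℤ) * (2 * n) + k * m = (g : ℤ) ^ 2 + (k : ℤ) ^ 2 + 1 - 3 * g * k := by
      have hq : ((g : ℤ) * (2 * n) + k * m : ℚ) = (g : ℚ) ^ 2 + (k : ℚ) ^ 2 + 1 - 3 * g * k := by
        have hr := reciprocity hgodd.pos hk hco
        have hg' : (g : ℚ) ≠ 0 := Nat.cast_ne_zero.2 hgodd.pos.ne'
        have hk' : (k : ℚ) ≠ 0 := Nat.cast_ne_zero.2 hk.ne'
        field_simp at hr
        push_cast
        rw [hn, hm]
        linear_combination (1 / 4 : ℚ) * hr
      exact_mod_cast hq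
    obtain ⟨g1, g2⟩ := odd_cast_eight hgodd
    obtain ⟨k1, k2⟩ := odd_cast_eight hodd
    have h8 : (g : ZMod 8) * ((2 * n : ℤ) : ZMod 8) =
        (g : ZMod 8) ^ 2 + (k : ZMod 8) ^ 2 + 1 - 3 * g * k - k * m := by
      have := congrArg (Int.cast : ℤ → ZMod 8) hrec
      push_cast at this ⊢
      linear_combination this
    have hsym : (J(g | k) : ZMod 8) =
        (if (g : ZMod 8) = 1 ∨ (g : ZMod 8) = 5 ∨ (k : ZMod 8) = 1 ∨ (k : ZMod 8) = 5 then 1
          else -1) * (J(k | g) : ZMod 8) := by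
      simp only [← @or_assoc ((g : ZMod 8) = 1), g2, k2]
      split_ifs with hcase
      · rw [one_mul]
        rcases hcase with h4 | h4
        · rw [jacobiSym.quadratic_reciprocity_one_mod_four h4 hodd]
        · rw [jacobiSym.quadratic_reciprocity_one_mod_four' hgodd h4]
      · push Not at hcase
        rw [jacobiSym.quadratic_reciprocity_three_mod_four (Nat.odd_mod_four_iff.1
          (Nat.odd_iff.1 hgodd) |>.resolve_left hcase.1) (Nat.odd_mod_four_iff.1
          (Nat.odd_iff.1 hodd) |>.resolve_left hcase.2)]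
        push_cast
        ring
    have hj : (J(k | g) : ZMod 8) = 1 ∨ (J(k | g) : ZMod 8) = -1 := by
      rcases jacobiSym.eq_one_or_neg_one hco' with h' | h' <;> simp [h']
    calc ((2 * n : ℤ) : ZMod 8)
        = (g : ZMod 8) * ((g : ZMod 8) * ((2 * n : ℤ) : ZMod 8)) := by
          rw [← mul_assoc, g1, one_mul]
      _ = _ := by rw [h8, hm8, congr_step _ _ _ g1 k1 hj, hsym]
  rcases Nat.even_or_odd g with hge | hgo
  · have hko : Odd (k - g) := Nat.Odd.sub_even hg.le hodd hge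
    have hco' : Nat.Coprime (k - g) k := by
      rw [Nat.coprime_self_sub_left hg.le]
      exact hco
    obtain ⟨n, hn, hn8⟩ := main (k - g) (by omega) hko hco'
    have hcast : (((k - g : ℕ) : ℤ) : ZMod k) = ((-(g : ℤ) : ℤ) : ZMod k) := by
      push_cast [Nat.cast_sub hg.le]
      simp
    refine ⟨-n, ?_, ?_⟩
    · rw [dedekindSum_congr hcast, dedekindSum_neg] at hn
      push_cast
      linear_combination -hn
    · have hJ : J(((k - g : ℕ) : ℤ) | k) = ZMod.χ₄ k * J((g : ℤ) | k) := by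
        rw [← jacobiSym.neg _ hodd]
        refine jacobiSym.mod_left' ?_
        rw [Nat.cast_sub hg.le, sub_eq_neg_add, Int.add_emod_right]
      obtain ⟨k1, k2⟩ := odd_cast_eight hodd
      have hj : (J(((k - g : ℕ) : ℤ) | k) : ZMod 8) = 1 ∨
          (J(((k - g : ℕ) : ℤ) | k) : ZMod 8) = -1 := by
        rcases jacobiSym.eq_one_or_neg_one (by rw [Int.gcd_natCast_natCast]; exact hco' :
          Int.gcd ((k - g : ℕ) : ℤ) k = 1) with h' | h' <;> simp [h']
      rw [Int.cast_neg, hn8, congr_neg _ _ k1 hj]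
      simp only [k2]
      rcases Nat.odd_mod_four_iff.1 (Nat.odd_iff.1 hodd) with h4 | h4
      · rw [if_pos h4, hJ, ZMod.χ₄_nat_one_mod_four h4, one_mul, one_mul]
      · rw [if_neg (by omega), hJ, ZMod.χ₄_nat_three_mod_four h4]
        push_cast
        ring
  · exact main g hg hgo hco

end FA.DedekindSums
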